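/-
S31 leaf (X_n) (helper94): `stableLeaf` — every finitely generated subgroup of `J₀(N)(ℚ̄)` killed
by `m` lies in a subgroup killed by `m`, stable under Galois and under all `heckeOperatorBar N ℓ`,
and fixed pointwise by `Gal(ℚ̄ / E)` for a number field `E`.

The subgroup is `ratTorsion N m E`, the `E`-rational `m`-torsion for a finite NORMAL level `E`
fixing the generators (`H17.exists_normal_level_fixing_finset`); Hecke-stability is
`H60.galois_smul_heckeOperatorBar`.  Also: the restricted Galois action and Hecke operators on a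
stable subgroup, as a `DistribMulAction` / `AddMonoid.End`.
-/
import Mathlib
import Fermat.Agent.S29.H17.GaloisOrbit
import Fermat.Agent.S29.H60.GaloisHecke

set_option autoImplicit false

open AlgebraicCurve ModularCurve

namespace Fermat.Agent.S31.H94

local notation "Qb" => AlgebraicClosure ℚ

/-- For a normal level `E`, an automorphism maps `E` into itself. -/
theorem apply_mem_of_normal (E : IntermediateField ℚ Qb) [Normal ℚ E] (g : Qb ≃ₐ[ℚ] Qb)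
    {a : Qb} (ha : a ∈ E) : g a ∈ E := by
  have h := AlgEquiv.restrictNormal_commutes g E ⟨a, ha⟩
  have h2 : g a = ((g.restrictNormal E ⟨a, ha⟩ : E) : Qb) := h.symm
  rw [h2]
  exact (g.restrictNormal E ⟨a, ha⟩).2

/-- For a normal level `E`, the conjugates of an automorphism fixing `E` pointwise fix `E`
pointwise. -/
theorem conj_fixes_of_normal (E : IntermediateField ℚ Qb) [Normal ℚ E] (g σ : Qb ≃ₐ[ℚ] Qb)
    (hσ : ∀ a ∈ E, σ a = a) : ∀ a ∈ E, (g⁻¹ * σ * g) a = a := by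
  intro a ha
  rw [AlgEquiv.mul_apply, AlgEquiv.mul_apply, hσ _ (apply_mem_of_normal E g ha)]
  exact g.symm_apply_apply a

variable (N : ℕ) [NeZero N]

/-- The `E`-rational `m`-torsion of `J₀(N)(ℚ̄)`. -/
def ratTorsion (m : ℕ) (E : IntermediateField ℚ Qb) : AddSubgroup (JZero N) where
  carrier := {x | m • x = 0 ∧ ∀ σ : Qb ≃ₐ[ℚ] Qb, (∀ a ∈ E, σ a = a) → σ • x = x}
  zero_mem' := ⟨smul_zero _, fun σ _ => smul_zero (A := JZero N) σ⟩
  add_mem' := by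
    rintro x y ⟨hx, hx'⟩ ⟨hy, hy'⟩
    refine ⟨by rw [nsmul_add, hx, hy, add_zero], fun σ hσ => ?_⟩
    rw [smul_add, hx' σ hσ, hy' σ hσ]
  neg_mem' := by
    rintro x ⟨hx, hx'⟩
    refine ⟨by rw [neg_nsmul, hx, neg_zero], fun σ hσ => ?_⟩
    rw [smul_neg, hx' σ hσ]

omit [NeZero N] in
theorem mem_ratTorsion {m : ℕ} {E : IntermediateField ℚ Qb} {x : JZero N} :
    x ∈ ratTorsion N m E ↔
      m • x = 0 ∧ ∀ σ : Qb ≃ₐ[ℚ] Qb, (∀ a ∈ E, σ a = a) → σ • x = x := Iff.rfl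

omit [NeZero N] in
theorem smul_mem_ratTorsion {m : ℕ} {E : IntermediateField ℚ Qb} [Normal ℚ E]
    (g : Qb ≃ₐ[ℚ] Qb) {x : JZero N} (hx : x ∈ ratTorsion N m E) : g • x ∈ ratTorsion N m E := by
  obtain ⟨hx, hx'⟩ := hx
  refine ⟨?_, fun σ hσ => ?_⟩
  · rw [smul_comm, hx]
    exact smul_zero (A := JZero N) g
  · have h := hx' (g⁻¹ * σ * g) (conj_fixes_of_normal E g σ hσ)
    rw [mul_smul, mul_smul] at h
    have h2 := congrArg (g • ·) h
    simpa using h2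

theorem hecke_mem_ratTorsion {m : ℕ} {E : IntermediateField ℚ Qb} (ℓ : Nat.Primes)
    {x : JZero N} (hx : x ∈ ratTorsion N m E) : heckeOperatorBar N ℓ x ∈ ratTorsion N m E := by
  obtain ⟨hx, hx'⟩ := hx
  refine ⟨?_, fun σ hσ => ?_⟩
  · rw [← map_nsmul, hx, map_zero]
  · rw [Fermat.Agent.S29.H60.galois_smul_heckeOperatorBar, hx' σ hσ]

/-- **(X_n)**, in the shape of `H34.StableLeaf` (any modulus `m`; take `m = p ^ n`). -/
theorem stable_of_fg (m : ℕ) (M : AddSubgroup (JZero N)) (hM : M.FG)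
    (hm : ∀ x ∈ M, m • x = 0) :
    ∃ (Z : AddSubgroup (JZero N)) (E : IntermediateField ℚ (AlgebraicClosure ℚ)),
      FiniteDimensional ℚ E ∧ Normal ℚ E ∧ M ≤ Z ∧ (∀ x ∈ Z, m • x = 0) ∧
      (∀ (g : AlgebraicClosure ℚ ≃ₐ[ℚ] AlgebraicClosure ℚ), ∀ x ∈ Z, g • x ∈ Z) ∧
      (∀ (ℓ : Nat.Primes), ∀ x ∈ Z, heckeOperatorBar N ℓ x ∈ Z) ∧
      (∀ σ : AlgebraicClosure ℚ ≃ₐ[ℚ] AlgebraicClosure ℚ, (∀ a ∈ E, σ a = a) →
        ∀ x ∈ Z, σ • x = x) := by
  obtain ⟨s, rfl⟩ := hM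
  obtain ⟨E, hE, hEn, hfix⟩ := Fermat.Agent.S29.H17.exists_normal_level_fixing_finset N s
  refine ⟨ratTorsion N m E, E, hE, hEn, ?_, fun x hx => hx.1,
    fun g x hx => smul_mem_ratTorsion N g hx, fun ℓ x hx => hecke_mem_ratTorsion N ℓ hx,
    fun σ hσ x hx => hx.2 σ hσ⟩
  intro x hx
  refine ⟨hm x hx, fun σ hσ => ?_⟩
  induction hx using AddSubgroup.closure_induction with
  | mem y hy => exact hfix σ hσ y hy
  | zero => exact smul_zero (A := JZero N) σ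
  | add y z _ _ hy hz => rw [smul_add, hy, hz]
  | neg y _ hy => rw [smul_neg, hy]

/-- **(X_n)**, verbatim `H34.StableLeaf N p`. -/
theorem stableLeaf (N p : ℕ) [NeZero N] :
    ∀ (n : ℕ) (M : AddSubgroup (JZero N)), M.FG → (∀ x ∈ M, p ^ n • x = 0) →
      ∃ (Z : AddSubgroup (JZero N)) (E : IntermediateField ℚ (AlgebraicClosure ℚ)),
        FiniteDimensional ℚ E ∧ M ≤ Z ∧ (∀ x ∈ Z, p ^ n • x = 0) ∧
        (∀ (g : AlgebraicClosure ℚ ≃ₐ[ℚ] AlgebraicClosure ℚ), ∀ x ∈ Z, g • x ∈ Z) ∧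
        (∀ (ℓ : Nat.Primes), ∀ x ∈ Z, heckeOperatorBar N ℓ x ∈ Z) ∧
        (∀ σ : AlgebraicClosure ℚ ≃ₐ[ℚ] AlgebraicClosure ℚ, (∀ a ∈ E, σ a = a) →
          ∀ x ∈ Z, σ • x = x) := by
  intro n M hM hm
  obtain ⟨Z, E, hE, -, h1, h2, h3, h4, h5⟩ := stable_of_fg N (p ^ n) M hM hm
  exact ⟨Z, E, hE, h1, h2, h3, h4, h5⟩

end Fermat.Agent.S31.H94

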